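/-
helper19, ES-D-A4 (Riemann-Hurwitz for the Riemann genus): the dictionary between the
ramification index `ramIdx y v` of `Fermat.Agent.H27.ESD.Interfaces` (defined through places)
and the exponent `expAt t P` of `Fermat.Agent.H56.RH.Interfaces` (defined through height one
primes of a Dedekind domain).
-/
import Fermat.Agent.H27.ESD.Interfaces
import Fermat.Agent.H56.RH.Interfaces
import Fermat.Agent.H29.PlaceDedekind
import Fermat.Agent.H23.PlaceBasic

set_option autoImplicit false
set_option linter.style.haveILetI false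

noncomputable section

open Polynomial IntermediateField AlgebraicCurve IsDedekindDomain

namespace Fermat.Agent.H19

open Fermat.Agent.H27.ESD (ramIdx)
open Fermat.Agent.H56.RH (expAt)

section Places

variable {K F : Type*} [Field K] [Field F] [Algebra K F] (v : Place K F)

/-- At a pole of `y`, the ramification index is the pole order. -/
theorem rh_ramIdx_of_ord_neg {y : F} (h : v.ord y < 0) :
    ramIdx y v = (v.ord y⁻¹).toNat := by
  unfold Fermat.Agent.H27.ESD.ramIdx
  rw [if_pos h, v.ord_inv]

theorem rh_ramIdx_of_ord_neg' {y : F} (h : v.ord y < 0) :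
    (ramIdx y v : ℤ) = -v.ord y := by
  rw [rh_ramIdx_of_ord_neg v h, v.ord_inv, Int.toNat_of_nonneg (by omega)]

/-- If `y - c₀` vanishes at `v`, then `y - c` has order zero at `v` for every `c ≠ c₀`. -/
theorem rh_ord_sub_const_eq_zero {y : F} {c₀ c : K} (h : 0 < v.ord (y - algebraMap K F c₀))
    (hc : c ≠ c₀) : v.ord (y - algebraMap K F c) = 0 := by
  have h0 : y - algebraMap K F c₀ ≠ 0 := by
    intro h0
    rw [h0, Place.ord_zero] at h
    exact lt_irrefl _ h
  have hcc : algebraMap K F (c₀ - c) ≠ 0 := by
    rw [Ne, map_eq_zero, sub_eq_zero]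
    exact fun h => hc h.symm
  have hco : v.ord (algebraMap K F (c₀ - c)) = 0 := Fermat.Agent.H23.ord_algebraMap v _
  have hsum : y - algebraMap K F c = algebraMap K F (c₀ - c) + (y - algebraMap K F c₀) := by
    rw [map_sub]; ring
  rw [hsum, Fermat.Agent.H23.ord_add_eq_of_lt v hcc h0 (by rw [hco]; exact h), hco]

/-- The constant at which `y` takes its value at `v` is unique. -/
theorem rh_const_unique {y : F} {c₀ c : K} (h₀ : 0 < v.ord (y - algebraMap K F c₀))
    (h : 0 < v.ord (y - algebraMap K F c)) : c = c₀ := by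
  by_contra hc
  have := rh_ord_sub_const_eq_zero v h₀ hc
  omega

theorem rh_ord_nonneg_of_ord_sub_pos {y : F} {c₀ : K}
    (h : 0 < v.ord (y - algebraMap K F c₀)) : 0 ≤ v.ord y := by
  by_cases hy : y = 0
  · rw [hy, Place.ord_zero]
  have hsum : y = (y - algebraMap K F c₀) + algebraMap K F c₀ := by ring
  rw [hsum]
  rw [hsum] at hy
  refine Fermat.Agent.H23.ord_add_ge v hy 0 (Or.inr h.le) (Or.inr ?_)
  rw [Fermat.Agent.H23.ord_algebraMap]

/-- At a place where `y - c₀` vanishes, the ramification index is the order of `y - c₀`. -/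
theorem rh_ramIdx_of_ord_sub_pos {y : F} {c₀ : K} (h : 0 < v.ord (y - algebraMap K F c₀)) :
    ramIdx y v = (v.ord (y - algebraMap K F c₀)).toNat := by
  have hy : ¬ v.ord y < 0 := not_lt.mpr (rh_ord_nonneg_of_ord_sub_pos v h)
  unfold Fermat.Agent.H27.ESD.ramIdx
  rw [if_neg hy]
  have hle : ∀ c : K, (v.ord (y - algebraMap K F c)).toNat ≤
      (v.ord (y - algebraMap K F c₀)).toNat := by
    intro c
    by_cases hc : c = c₀
    · rw [hc]
    · rw [rh_ord_sub_const_eq_zero v h hc]
      simp
  apply le_antisymm
  · exact ciSup_le hle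
  · exact le_ciSup (f := fun c : K => (v.ord (y - algebraMap K F c)).toNat)
      ⟨_, by rintro _ ⟨c, rfl⟩; exact hle c⟩ c₀

theorem rh_ramIdx_of_ord_sub_pos' {y : F} {c₀ : K} (h : 0 < v.ord (y - algebraMap K F c₀)) :
    (ramIdx y v : ℤ) = v.ord (y - algebraMap K F c₀) := by
  rw [rh_ramIdx_of_ord_sub_pos v h, Int.toNat_of_nonneg h.le]

/-- Every place of degree one is either a pole of the transcendental `y` or a zero of exactly
one `y - c`. -/
theorem rh_place_cases (hdeg : v.deg = 1) {y : F} (hy : Transcendental K y) :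
    v.ord y < 0 ∨ ∃ c : K, 0 < v.ord (y - algebraMap K F c) := by
  by_cases h : v.ord y < 0
  · exact Or.inl h
  right
  obtain ⟨c, hc⟩ := Fermat.Agent.H23.exists_const_ord_sub_pos v hdeg (f := y)
    (Or.inr (not_lt.mp h))
  rcases hc with hc | hc
  · exfalso
    apply hy
    rw [hc]
    exact isAlgebraic_algebraMap c
  · exact ⟨c, hc⟩

/-- The ramification index is positive. -/
theorem rh_ramIdx_pos (hdeg : v.deg = 1) {y : F} (hy : Transcendental K y) :
    0 < ramIdx y v := by
  rcases rh_place_cases v hdeg hy with h | ⟨c, h⟩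
  · have := rh_ramIdx_of_ord_neg' v h
    omega
  · have := rh_ramIdx_of_ord_sub_pos' v h
    omega

theorem rh_ramIdx_sub_one (hdeg : v.deg = 1) {y : F} (hy : Transcendental K y) :
    ((ramIdx y v : ℤ) - 1) = ((ramIdx y v - 1 : ℕ) : ℤ) := by
  have := rh_ramIdx_pos v hdeg hy
  omega

/-- The ramification index with respect to `y⁻¹` and `y - c` equals that of `y`. -/
theorem rh_ramIdx_inv_of_ord_neg {y : F} (h : v.ord y < 0) :
    ramIdx y v = (v.ord (y⁻¹ - algebraMap K F 0)).toNat := by
  rw [rh_ramIdx_of_ord_neg v h, map_zero, sub_zero]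

end Places

section Primes

variable {K F : Type*} [Field K] [Field F] [Algebra K F]
variable {A B : Type} [CommRing A] [CommRing B] [IsDedekindDomain B] [Algebra A B]
  [Algebra A F] [Algebra B F] [IsScalarTower A B F] [IsFractionRing B F]
  [Algebra K B] [IsScalarTower K B F]

/-- The order at the place of a height one prime, on the image of `B`. -/
theorem rh_ord_algebraMap_eq (w : HeightOneSpectrum B) (b : B) :
    (Place.ofHeightOneSpectrum (K := K) (F := F) w).ord (algebraMap B F b) =
      -(WithZero.log (w.intValuation b)) := by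
  rw [Fermat.Agent.H29.ord_ofHeightOneSpectrum, HeightOneSpectrum.valuation_of_algebraMap]

/-- **expAt = order at the place.**  For `t : A`, the exponent of the height one prime `w` of
`B` at `t` is the order of (the image of) `t` at the place of `w`. -/
theorem rh_expAt_eq (t : A) (w : HeightOneSpectrum B) :
    expAt t w = ((Place.ofHeightOneSpectrum (K := K) (F := F) w).ord (algebraMap A F t)).toNat := by
  unfold Fermat.Agent.H56.RH.expAt
  rw [IsScalarTower.algebraMap_apply A B F, rh_ord_algebraMap_eq]

theorem rh_ord_algebraMap_nonneg (t : A) (w : HeightOneSpectrum B) :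
    0 ≤ (Place.ofHeightOneSpectrum (K := K) (F := F) w).ord (algebraMap A F t) := by
  rw [IsScalarTower.algebraMap_apply A B F]
  apply Fermat.Agent.H29.place_ord_nonneg_of_mem
  rw [Place.ofHeightOneSpectrum_toValuationSubring, Valuation.mem_valuationSubring_iff]
  exact w.valuation_le_one _

theorem rh_expAt_cast (t : A) (w : HeightOneSpectrum B) :
    (expAt t w : ℤ) = (Place.ofHeightOneSpectrum (K := K) (F := F) w).ord (algebraMap A F t) := by
  rw [rh_expAt_eq (K := K) (F := F), Int.toNat_of_nonneg (rh_ord_algebraMap_nonneg t w)]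

theorem rh_expAt_pos_iff (t : A) (w : HeightOneSpectrum B) :
    0 < expAt t w ↔
      0 < (Place.ofHeightOneSpectrum (K := K) (F := F) w).ord (algebraMap A F t) := by
  rw [← rh_expAt_cast (K := K) (F := F)]
  exact Nat.cast_pos.symm

/-- If the image of `t` is `y - c`, the exponent at `t` of a prime containing `t` is the
ramification index of `y` at the corresponding place. -/
theorem rh_ramIdx_eq_expAt {y : F} {c : K} (t : A) (ht : algebraMap A F t = y - algebraMap K F c)
    (w : HeightOneSpectrum B) (hw : 0 < expAt t w) :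
    ramIdx y (Place.ofHeightOneSpectrum (K := K) (F := F) w) = expAt t w := by
  have h := (rh_expAt_pos_iff (K := K) (F := F) t w).mp hw
  rw [ht] at h
  rw [rh_ramIdx_of_ord_sub_pos _ h, rh_expAt_eq (K := K) (F := F), ht]

/-- If the image of `t` is `y⁻¹`, the exponent at `t` of a prime containing `t` is the
ramification index of `y` at the corresponding place (a pole of `y`). -/
theorem rh_ramIdx_eq_expAt_inv {y : F} (t : A) (ht : algebraMap A F t = y⁻¹)
    (w : HeightOneSpectrum B) (hw : 0 < expAt t w) :
    ramIdx y (Place.ofHeightOneSpectrum (K := K) (F := F) w) = expAt t w := by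
  have h := (rh_expAt_pos_iff (K := K) (F := F) t w).mp hw
  rw [ht] at h
  have hneg : (Place.ofHeightOneSpectrum (K := K) (F := F) w).ord y < 0 := by
    rw [Place.ord_inv] at h
    omega
  rw [rh_ramIdx_of_ord_neg _ hneg, rh_expAt_eq (K := K) (F := F), ht]

/-- Reindexing of a sum over the height one primes of `B` as a sum over the places of `F`
coming from `B`. -/
theorem rh_finsum_heightOneSpectrum {M : Type*} [AddCommMonoid M]
    (φ : Place K F → M) :
    ∑ᶠ w : HeightOneSpectrum B, φ (Place.ofHeightOneSpectrum (K := K) (F := F) w) =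
      ∑ᶠ v ∈ Set.range (Place.ofHeightOneSpectrum (K := K) (F := F) (R := B)), φ v :=
  (finsum_mem_range (Fermat.Agent.H29.ofHeightOneSpectrum_injective (K := K) (F := F)
    (R := B))).symm

end Primes

end Fermat.Agent.H19

end
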