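/-
helper19, ES-D-A4 (Riemann-Hurwitz for the Riemann genus): the sum of `ramIdx y v - 1` over all
places, decomposed along the fibres of `y` (the zeros of `y - c`, `c ∈ K`, and the poles of
`y`), and the translation of each fibre sum into a sum over the height one primes of a Dedekind
domain.
-/
import Fermat.Agent.H19.RH.RamIdx

set_option autoImplicit false
set_option linter.style.haveILetI false

noncomputable section

open Polynomial IntermediateField AlgebraicCurve IsDedekindDomain

namespace Fermat.Agent.H19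

open Fermat.Agent.H27.ESD (ramIdx)
open Fermat.Agent.H56.RH (expAt)

section Fibres

variable {K F : Type*} [Field K] [Field F] [Algebra K F]

/-- The fibre of `y` over `c : K`: the zeros of `y - c`. -/
def rhFibre (y : F) (c : K) : Set (Place K F) := {v | 0 < v.ord (y - algebraMap K F c)}

/-- The fibre of `y` over `∞`: the poles of `y`. -/
def rhFibreInf (K : Type*) [Field K] {F : Type*} [Field F] [Algebra K F] (y : F) :
    Set (Place K F) := {v | v.ord y < 0}

theorem mem_rhFibre {y : F} {c : K} {v : Place K F} :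
    v ∈ rhFibre y c ↔ 0 < v.ord (y - algebraMap K F c) := Iff.rfl

theorem mem_rhFibreInf {y : F} {v : Place K F} :
    v ∈ rhFibreInf K y ↔ v.ord y < 0 := Iff.rfl

theorem rhFibre_disjoint (y : F) {c c' : K} (h : c ≠ c') :
    Disjoint (rhFibre (K := K) y c) (rhFibre y c') := by
  rw [Set.disjoint_left]
  intro v hv hv'
  exact h (rh_const_unique v hv' hv)

theorem rhFibre_disjoint_inf (y : F) (c : K) :
    Disjoint (rhFibre (K := K) y c) (rhFibreInf K y) := by
  rw [Set.disjoint_left]
  intro v hv hv'
  have := rh_ord_nonneg_of_ord_sub_pos v hv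
  have hv'' : v.ord y < 0 := hv'
  omega

/-- **Fibre decomposition of the Hurwitz sum.**  If all fibres of `y` are finite and `C` is a
finite set of constants containing all branch values of `y` in `K`, then only finitely many
places are ramified and the sum of `e_v - 1` over all places is the sum of the fibre sums over
`C` and over `∞`. -/
theorem rh_finsum_fibres (hdeg : ∀ v : Place K F, v.deg = 1) {y : F} (hy : Transcendental K y)
    (hfin : ∀ c : K, (rhFibre (K := K) y c).Finite) (hinf : (rhFibreInf K y).Finite)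
    (C : Finset K)
    (hC : ∀ (c : K) (v : Place K F), 0 < v.ord (y - algebraMap K F c) → 1 < ramIdx y v → c ∈ C) :
    {v : Place K F | 1 < ramIdx y v}.Finite ∧
    ∑ᶠ v : Place K F, ((ramIdx y v : ℤ) - 1) =
      ∑ c ∈ C, ∑ᶠ v ∈ rhFibre (K := K) y c, ((ramIdx y v : ℤ) - 1) +
        ∑ᶠ v ∈ rhFibreInf K y, ((ramIdx y v : ℤ) - 1) := by
  classical
  set S : Set (Place K F) := (⋃ c ∈ (C : Set K), rhFibre (K := K) y c) ∪ rhFibreInf K y with hS
  have hUfin : (⋃ c ∈ (C : Set K), rhFibre (K := K) y c).Finite :=
    Set.Finite.biUnion C.finite_toSet (fun c _ => hfin c)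
  have hSfin : S.Finite := hUfin.union hinf
  have hsub : {v : Place K F | 1 < ramIdx y v} ⊆ S := by
    intro v hv
    rcases rh_place_cases v (hdeg v) hy with h | ⟨c, h⟩
    · exact Or.inr h
    · left
      simp only [Set.mem_iUnion]
      exact ⟨c, hC c v h hv, h⟩
  have hsupp : Function.support (fun v : Place K F => ((ramIdx y v : ℤ) - 1)) ⊆ S := by
    intro v hv
    apply hsub
    have h1 := rh_ramIdx_pos v (hdeg v) hy
    have h2 : ((ramIdx y v : ℤ) - 1) ≠ 0 := hv
    show 1 < ramIdx y v
    omega
  refine ⟨hSfin.subset hsub, ?_⟩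
  have hdisj : Disjoint (⋃ c ∈ (C : Set K), rhFibre (K := K) y c) (rhFibreInf K y) := by
    rw [Set.disjoint_left]
    intro v hv hv'
    simp only [Set.mem_iUnion] at hv
    obtain ⟨c, _, hc⟩ := hv
    exact Set.disjoint_left.mp (rhFibre_disjoint_inf y c) hc hv'
  have hpair : (C : Set K).PairwiseDisjoint (fun c => rhFibre (K := K) y c) := by
    intro c _ c' _ hcc
    exact rhFibre_disjoint y hcc
  calc ∑ᶠ v : Place K F, ((ramIdx y v : ℤ) - 1)
      = ∑ᶠ v ∈ S, ((ramIdx y v : ℤ) - 1) := by
        rw [← finsum_mem_univ]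
        apply finsum_mem_inter_support_eq'
        intro v hv
        simp only [Set.mem_univ, true_iff]
        exact hsupp hv
    _ = ∑ᶠ v ∈ ⋃ c ∈ (C : Set K), rhFibre (K := K) y c, ((ramIdx y v : ℤ) - 1) +
          ∑ᶠ v ∈ rhFibreInf K y, ((ramIdx y v : ℤ) - 1) :=
        finsum_mem_union hdisj hUfin hinf
    _ = ∑ c ∈ C, ∑ᶠ v ∈ rhFibre (K := K) y c, ((ramIdx y v : ℤ) - 1) +
          ∑ᶠ v ∈ rhFibreInf K y, ((ramIdx y v : ℤ) - 1) := by
        rw [finsum_mem_biUnion hpair C.finite_toSet (fun c _ => hfin c),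
          finsum_mem_coe_finset]

end Fibres

section Primes

variable {K F : Type*} [Field K] [Field F] [Algebra K F]
variable {A B : Type} [CommRing A] [CommRing B] [IsDedekindDomain B] [Algebra A B]
  [Algebra A F] [Algebra B F] [IsScalarTower A B F] [IsFractionRing B F]
  [Algebra K B] [IsScalarTower K B F]

/-- The places where `algebraMap A F t` vanishes are the places of the primes of `B`
containing `t`, provided every place at which `z` is regular comes from a prime of `B`. -/
theorem rh_zeros_eq_image (t : A)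
    (hrange : ∀ v : Place K F, 0 < v.ord (algebraMap A F t) →
      ∃ w : HeightOneSpectrum B, Place.ofHeightOneSpectrum (K := K) (F := F) w = v) :
    {v : Place K F | 0 < v.ord (algebraMap A F t)} =
      (Place.ofHeightOneSpectrum (K := K) (F := F)) '' {w : HeightOneSpectrum B | 0 < expAt t w} := by
  ext v
  constructor
  · intro hv
    obtain ⟨w, rfl⟩ := hrange v hv
    exact ⟨w, (rh_expAt_pos_iff (K := K) (F := F) t w).mpr hv, rfl⟩
  · rintro ⟨w, hw, rfl⟩
    exact (rh_expAt_pos_iff (K := K) (F := F) t w).mp hw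

/-- Finiteness of the zero set of `algebraMap A F t` from finiteness of the set of primes
containing `t`. -/
theorem rh_zeros_finite (t : A)
    (hrange : ∀ v : Place K F, 0 < v.ord (algebraMap A F t) →
      ∃ w : HeightOneSpectrum B, Place.ofHeightOneSpectrum (K := K) (F := F) w = v)
    (hfin : {w : HeightOneSpectrum B | 0 < expAt t w}.Finite) :
    {v : Place K F | 0 < v.ord (algebraMap A F t)}.Finite := by
  rw [rh_zeros_eq_image t hrange]
  exact hfin.image _

/-- **Translation of a fibre sum.**  The sum of `ord_v z - 1` over the zeros `v` of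
`z = algebraMap A F t` is the sum of `expAt t P - 1` over the height one primes of `B`. -/
theorem rh_finsum_zeros_eq (t : A)
    (hrange : ∀ v : Place K F, 0 < v.ord (algebraMap A F t) →
      ∃ w : HeightOneSpectrum B, Place.ofHeightOneSpectrum (K := K) (F := F) w = v) :
    ∑ᶠ v ∈ {v : Place K F | 0 < v.ord (algebraMap A F t)}, (v.ord (algebraMap A F t) - 1) =
      ∑ᶠ w : HeightOneSpectrum B, (((expAt t w - 1 : ℕ) : ℕ) : ℤ) := by
  classical
  set φ : Place K F → ℤ := fun v =>
    if 0 < v.ord (algebraMap A F t) then v.ord (algebraMap A F t) - 1 else 0 with hφ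
  have h1 : ∀ w : HeightOneSpectrum B,
      (((expAt t w - 1 : ℕ) : ℕ) : ℤ) = φ (Place.ofHeightOneSpectrum (K := K) (F := F) w) := by
    intro w
    have hc := rh_expAt_cast (K := K) (F := F) t w
    simp only [hφ]
    split_ifs with h
    · rw [← hc] at h ⊢
      have : 0 < expAt t w := by exact_mod_cast h
      omega
    · rw [← hc] at h
      have : expAt t w = 0 := by
        by_contra h0
        exact h (by exact_mod_cast Nat.pos_of_ne_zero h0)
      rw [this]
      simp
  rw [finsum_congr h1, rh_finsum_heightOneSpectrum (K := K) (F := F) (B := B) φ]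
  have h2 : ∑ᶠ v ∈ {v : Place K F | 0 < v.ord (algebraMap A F t)},
      (v.ord (algebraMap A F t) - 1) =
      ∑ᶠ v ∈ {v : Place K F | 0 < v.ord (algebraMap A F t)}, φ v := by
    apply finsum_mem_congr rfl
    intro v hv
    have hv' : 0 < v.ord (algebraMap A F t) := hv
    simp only [hφ]
    rw [if_pos hv']
  rw [h2]
  apply finsum_mem_inter_support_eq'
  intro v hv
  have hv' : φ v ≠ 0 := hv
  have hpos : 0 < v.ord (algebraMap A F t) := by
    by_contra h
    apply hv'
    simp only [hφ]
    rw [if_neg h]
  constructor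
  · intro _
    obtain ⟨w, hw⟩ := hrange v hpos
    exact ⟨w, hw⟩
  · intro _
    exact hpos

/-- Fibre over `c`: the sum of `e_v - 1` over the zeros of `y - c` in terms of primes. -/
theorem rh_finsum_fibre_eq {y : F} {c : K} (t : A)
    (ht : algebraMap A F t = y - algebraMap K F c)
    (hrange : ∀ v : Place K F, 0 ≤ v.ord y →
      ∃ w : HeightOneSpectrum B, Place.ofHeightOneSpectrum (K := K) (F := F) w = v) :
    ∑ᶠ v ∈ rhFibre (K := K) y c, ((ramIdx y v : ℤ) - 1) =
      ∑ᶠ w : HeightOneSpectrum B, (((expAt t w - 1 : ℕ) : ℕ) : ℤ) := by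
  have hrange' : ∀ v : Place K F, 0 < v.ord (algebraMap A F t) →
      ∃ w : HeightOneSpectrum B, Place.ofHeightOneSpectrum (K := K) (F := F) w = v := by
    intro v hv
    rw [ht] at hv
    exact hrange v (rh_ord_nonneg_of_ord_sub_pos v hv)
  rw [← rh_finsum_zeros_eq (K := K) (F := F) t hrange']
  have hset : rhFibre (K := K) y c = {v : Place K F | 0 < v.ord (algebraMap A F t)} := by
    ext v
    rw [ht]
    rfl
  rw [hset]
  apply finsum_mem_congr rfl
  intro v hv
  have hv' : 0 < v.ord (y - algebraMap K F c) := by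
    rw [← ht]; exact hv
  rw [rh_ramIdx_of_ord_sub_pos' v hv', ht]

/-- Fibre over `∞`: the sum of `e_v - 1` over the poles of `y` in terms of primes of a
Dedekind domain `B` in which `y⁻¹` is (the image of) `t`. -/
theorem rh_finsum_fibreInf_eq {y : F} (t : A) (ht : algebraMap A F t = y⁻¹)
    (hrange : ∀ v : Place K F, 0 ≤ v.ord y⁻¹ →
      ∃ w : HeightOneSpectrum B, Place.ofHeightOneSpectrum (K := K) (F := F) w = v) :
    ∑ᶠ v ∈ rhFibreInf K y, ((ramIdx y v : ℤ) - 1) =
      ∑ᶠ w : HeightOneSpectrum B, (((expAt t w - 1 : ℕ) : ℕ) : ℤ) := by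
  have hrange' : ∀ v : Place K F, 0 < v.ord (algebraMap A F t) →
      ∃ w : HeightOneSpectrum B, Place.ofHeightOneSpectrum (K := K) (F := F) w = v := by
    intro v hv
    rw [ht] at hv
    exact hrange v hv.le
  rw [← rh_finsum_zeros_eq (K := K) (F := F) t hrange']
  have hset : rhFibreInf K y = {v : Place K F | 0 < v.ord (algebraMap A F t)} := by
    ext v
    rw [ht, Set.mem_ofPred_eq, Place.ord_inv]
    show v.ord y < 0 ↔ _
    omega
  rw [hset]
  apply finsum_mem_congr rfl
  intro v hv
  have hv' : 0 < v.ord y⁻¹ := by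
    rw [← ht]; exact hv
  have hneg : v.ord y < 0 := by
    rw [Place.ord_inv] at hv'
    omega
  rw [rh_ramIdx_of_ord_neg' v hneg, ht, Place.ord_inv]

theorem rh_fibre_finite {y : F} {c : K} (t : A)
    (ht : algebraMap A F t = y - algebraMap K F c)
    (hrange : ∀ v : Place K F, 0 ≤ v.ord y →
      ∃ w : HeightOneSpectrum B, Place.ofHeightOneSpectrum (K := K) (F := F) w = v)
    (hfin : {w : HeightOneSpectrum B | 0 < expAt t w}.Finite) :
    (rhFibre (K := K) y c).Finite := by
  have hrange' : ∀ v : Place K F, 0 < v.ord (algebraMap A F t) →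
      ∃ w : HeightOneSpectrum B, Place.ofHeightOneSpectrum (K := K) (F := F) w = v := by
    intro v hv
    rw [ht] at hv
    exact hrange v (rh_ord_nonneg_of_ord_sub_pos v hv)
  have := rh_zeros_finite (K := K) (F := F) t hrange' hfin
  rw [ht] at this
  exact this

theorem rh_fibreInf_finite {y : F} (t : A) (ht : algebraMap A F t = y⁻¹)
    (hrange : ∀ v : Place K F, 0 ≤ v.ord y⁻¹ →
      ∃ w : HeightOneSpectrum B, Place.ofHeightOneSpectrum (K := K) (F := F) w = v)
    (hfin : {w : HeightOneSpectrum B | 0 < expAt t w}.Finite) :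
    (rhFibreInf K y).Finite := by
  have hrange' : ∀ v : Place K F, 0 < v.ord (algebraMap A F t) →
      ∃ w : HeightOneSpectrum B, Place.ofHeightOneSpectrum (K := K) (F := F) w = v := by
    intro v hv
    rw [ht] at hv
    exact hrange v hv.le
  have := rh_zeros_finite (K := K) (F := F) t hrange' hfin
  rw [ht] at this
  refine this.subset ?_
  intro v hv
  have hv' : v.ord y < 0 := hv
  show 0 < v.ord y⁻¹
  rw [Place.ord_inv]
  omega

/-- A ramified place in the fibre over `c` gives a prime `P` of `B` with `2 ≤ expAt t P`. -/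
theorem rh_exists_expAt_of_ramified {y : F} {c : K} (t : A)
    (ht : algebraMap A F t = y - algebraMap K F c)
    (hrange : ∀ v : Place K F, 0 ≤ v.ord y →
      ∃ w : HeightOneSpectrum B, Place.ofHeightOneSpectrum (K := K) (F := F) w = v)
    (v : Place K F) (hv : 0 < v.ord (y - algebraMap K F c)) (hram : 1 < ramIdx y v) :
    ∃ w : HeightOneSpectrum B, 1 < expAt t w := by
  obtain ⟨w, rfl⟩ := hrange v (rh_ord_nonneg_of_ord_sub_pos v hv)
  refine ⟨w, ?_⟩
  have hpos : 0 < expAt t w := by
    rw [rh_expAt_pos_iff (K := K) (F := F), ht]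
    exact hv
  rw [← rh_ramIdx_eq_expAt (K := K) (F := F) t ht w hpos]
  exact hram

end Primes

end Fermat.Agent.H19

end
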