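/-
helper19, ES-D-A4 (Riemann-Hurwitz for the Riemann genus), block FRAME:
the `RatFunc K`-algebra structure on `F` attached to a transcendental `y : F`
(`X ↦ y`), and the transfer of finiteness, separability and degree from `K⟮y⟯`.
Mathlib only.
-/
import Mathlib

set_option autoImplicit false
set_option linter.style.haveILetI false

noncomputable section

open Polynomial IntermediateField

namespace Fermat.Agent.H19

section Frame

variable {K F : Type*} [Field K] [Field F] [Algebra K F]

/-- The `K`-algebra homomorphism `K(X) → F`, `X ↦ y`, for a transcendental `y`. -/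
def rhAlgHom (y : F) (hy : Transcendental K y) : RatFunc K →ₐ[K] F :=
  (IntermediateField.val K⟮y⟯).comp (RatFunc.algEquivOfTranscendental y hy).toAlgHom

theorem rhAlgHom_apply (y : F) (hy : Transcendental K y) (u : RatFunc K) :
    rhAlgHom y hy u = ((RatFunc.algEquivOfTranscendental y hy u : K⟮y⟯) : F) := rfl

@[simp]
theorem rhAlgHom_X (y : F) (hy : Transcendental K y) :
    rhAlgHom y hy (RatFunc.X : RatFunc K) = y := by
  rw [rhAlgHom_apply, RatFunc.algEquivOfTranscendental_X]

@[simp]
theorem rhAlgHom_algebraMap_polynomial (y : F) (hy : Transcendental K y) (p : K[X]) :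
    rhAlgHom y hy (algebraMap K[X] (RatFunc K) p) = aeval y p := by
  rw [rhAlgHom_apply, RatFunc.algEquivOfTranscendental_algebraMap]
  induction p using Polynomial.induction_on' with
  | add p q hp hq => simp only [map_add, AddMemClass.coe_add, hp, hq]
  | monomial n a =>
    simp only [aeval_monomial, MulMemClass.coe_mul, SubmonoidClass.coe_pow,
      AdjoinSimple.coe_gen]
    rfl

@[simp]
theorem rhAlgHom_C (y : F) (hy : Transcendental K y) (c : K) :
    rhAlgHom y hy (RatFunc.C c) = algebraMap K F c := by
  rw [← RatFunc.algebraMap_eq_C, AlgHom.commutes]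

theorem rhAlgHom_eq_div (y : F) (hy : Transcendental K y) (u : RatFunc K) :
    rhAlgHom y hy u = aeval y u.num / aeval y u.denom := by
  conv_lhs => rw [← RatFunc.num_div_denom u]
  rw [map_div₀, rhAlgHom_algebraMap_polynomial, rhAlgHom_algebraMap_polynomial]

theorem rhAlgHom_injective (y : F) (hy : Transcendental K y) :
    Function.Injective (rhAlgHom y hy) :=
  (rhAlgHom y hy).toRingHom.injective

theorem rhAlgHom_mem_adjoin (y : F) (hy : Transcendental K y) (u : RatFunc K) :
    rhAlgHom y hy u ∈ K⟮y⟯ :=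
  (RatFunc.algEquivOfTranscendental y hy u).2

theorem rhAlgHom_exists_of_mem_adjoin (y : F) (hy : Transcendental K y) {f : F}
    (hf : f ∈ K⟮y⟯) : ∃ u : RatFunc K, rhAlgHom y hy u = f :=
  ⟨(RatFunc.algEquivOfTranscendental y hy).symm ⟨f, hf⟩, by
    rw [rhAlgHom_apply, AlgEquiv.apply_symm_apply]⟩

theorem rhAlgHom_fieldRange (y : F) (hy : Transcendental K y) :
    (rhAlgHom y hy).fieldRange = K⟮y⟯ := by
  ext f
  constructor
  · rintro ⟨u, rfl⟩
    exact rhAlgHom_mem_adjoin y hy u
  · intro hf
    obtain ⟨u, hu⟩ := rhAlgHom_exists_of_mem_adjoin y hy hf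
    exact ⟨u, hu⟩

/-- **FRAME.**  The `K(X)`-algebra structure on `F` with `X ↦ y`.  Not an instance: use
`letI := rhAlgebra y hy`. -/
@[reducible]
def rhAlgebra (y : F) (hy : Transcendental K y) : Algebra (RatFunc K) F :=
  (rhAlgHom y hy).toRingHom.toAlgebra

theorem rhAlgebra_algebraMap_apply (y : F) (hy : Transcendental K y) (u : RatFunc K) :
    letI := rhAlgebra y hy
    algebraMap (RatFunc K) F u = rhAlgHom y hy u := rfl

theorem rhAlgebra_algebraMap_X (y : F) (hy : Transcendental K y) :
    letI := rhAlgebra y hy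
    algebraMap (RatFunc K) F RatFunc.X = y := rhAlgHom_X y hy

theorem rhAlgebra_smul_def (y : F) (hy : Transcendental K y) (u : RatFunc K) (f : F) :
    letI := rhAlgebra y hy
    u • f = rhAlgHom y hy u * f := rfl

theorem rhAlgebra_isScalarTower (y : F) (hy : Transcendental K y) :
    letI := rhAlgebra y hy
    IsScalarTower K (RatFunc K) F :=
  letI := rhAlgebra y hy
  IsScalarTower.of_algebraMap_eq fun c => ((rhAlgHom y hy).commutes c).symm

/-- The ring equivalence `K(X) ≃ K⟮y⟯` is compatible with the two algebra structures on `F`. -/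
theorem rhAlgebra_comp_eq (y : F) (hy : Transcendental K y) :
    letI := rhAlgebra y hy
    (algebraMap (RatFunc K) F).comp
        ((RatFunc.algEquivOfTranscendental y hy).symm : K⟮y⟯ ≃+* RatFunc K).toRingHom =
      (RingEquiv.refl F).toRingHom.comp (algebraMap K⟮y⟯ F) := by
  letI := rhAlgebra y hy
  ext x
  show rhAlgHom y hy ((RatFunc.algEquivOfTranscendental y hy).symm x) = (x : F)
  rw [rhAlgHom_apply, AlgEquiv.apply_symm_apply]

theorem rhAlgebra_finiteDimensional (y : F) (hy : Transcendental K y)
    [FiniteDimensional K⟮y⟯ F] :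
    letI := rhAlgebra y hy
    FiniteDimensional (RatFunc K) F :=
  letI := rhAlgebra y hy
  Module.Finite.of_equiv_equiv
    ((RatFunc.algEquivOfTranscendental y hy).symm : K⟮y⟯ ≃+* RatFunc K) (RingEquiv.refl F)
    (rhAlgebra_comp_eq y hy)

theorem rhAlgebra_isSeparable (y : F) (hy : Transcendental K y)
    [Algebra.IsSeparable K⟮y⟯ F] :
    letI := rhAlgebra y hy
    Algebra.IsSeparable (RatFunc K) F :=
  letI := rhAlgebra y hy
  Algebra.IsSeparable.of_equiv_equiv
    ((RatFunc.algEquivOfTranscendental y hy).symm : K⟮y⟯ ≃+* RatFunc K) (RingEquiv.refl F)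
    (rhAlgebra_comp_eq y hy)

theorem rhAlgebra_finrank (y : F) (hy : Transcendental K y) :
    letI := rhAlgebra y hy
    Module.finrank (RatFunc K) F = Module.finrank K⟮y⟯ F :=
  letI := rhAlgebra y hy
  (Algebra.finrank_eq_of_equiv_equiv
    ((RatFunc.algEquivOfTranscendental y hy).symm : K⟮y⟯ ≃+* RatFunc K) (RingEquiv.refl F)
    (rhAlgebra_comp_eq y hy)).symm

/-- The `K[X]`-algebra structure on `F` (`X ↦ y`) induced by `rhAlgebra`. -/
@[reducible]
def rhPolyAlgebra (y : F) : Algebra K[X] F := (aeval y : K[X] →ₐ[K] F).toRingHom.toAlgebra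

theorem rhPolyAlgebra_algebraMap_apply (y : F) (p : K[X]) :
    letI := rhPolyAlgebra (K := K) y
    algebraMap K[X] F p = aeval y p := rfl

theorem rhPolyAlgebra_isScalarTower (y : F) (hy : Transcendental K y) :
    letI := rhAlgebra y hy
    letI := rhPolyAlgebra (K := K) y
    IsScalarTower K[X] (RatFunc K) F :=
  letI := rhAlgebra y hy
  letI := rhPolyAlgebra (K := K) y
  IsScalarTower.of_algebraMap_eq fun p => (rhAlgHom_algebraMap_polynomial y hy p).symm

theorem rhPolyAlgebra_isScalarTower' (y : F) :
    letI := rhPolyAlgebra (K := K) y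
    IsScalarTower K K[X] F :=
  letI := rhPolyAlgebra (K := K) y
  IsScalarTower.of_algebraMap_eq fun c => by
    show algebraMap K F c = aeval y (algebraMap K K[X] c)
    rw [Polynomial.algebraMap_eq, aeval_C]

/-- **FRAME, packaged.**  For `y` transcendental with `F / K⟮y⟯` finite separable there is a
`K(X)`-algebra structure on `F` with `X ↦ y`, compatible with the `K`-structure, finite,
separable, of the same degree. -/
theorem rh_frame (y : F) (hy : Transcendental K y) [FiniteDimensional K⟮y⟯ F]
    [Algebra.IsSeparable K⟮y⟯ F] :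
    ∃ _ : Algebra (RatFunc K) F, IsScalarTower K (RatFunc K) F ∧
      algebraMap (RatFunc K) F RatFunc.X = y ∧
      FiniteDimensional (RatFunc K) F ∧ Algebra.IsSeparable (RatFunc K) F ∧
      Module.finrank (RatFunc K) F = Module.finrank K⟮y⟯ F :=
  ⟨rhAlgebra y hy, rhAlgebra_isScalarTower y hy, rhAlgebra_algebraMap_X y hy,
    rhAlgebra_finiteDimensional y hy, rhAlgebra_isSeparable y hy, rhAlgebra_finrank y hy⟩

end Frame

end Fermat.Agent.H19

end
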