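/-
helper19, ES-D-A4 (Riemann-Hurwitz for the Riemann genus): the glue blocks FRAME and DICT of
`Fermat.Agent.H56.RH.Interfaces2`.
-/
import Fermat.Agent.H56.RH.Interfaces2
import Fermat.Agent.H19.RH.Frame
import Fermat.Agent.H29.PlaceDedekind

set_option autoImplicit false
set_option linter.style.haveILetI false

noncomputable section

open Polynomial IntermediateField AlgebraicCurve IsDedekindDomain

namespace Fermat.Agent.H19

section Frame

variable {K F : Type} [Field K] [Field F] [Algebra K F]

/-- helper56's `ratFuncHom` is the ring homomorphism underlying `rhAlgHom`. -/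
theorem ratFuncHom_eq_rhAlgHom (y : F) (hy : Transcendental K y) :
    Fermat.Agent.H56.RH.ratFuncHom y hy = (rhAlgHom y hy).toRingHom := by
  apply IsLocalization.ringHom_ext (nonZeroDivisors K[X])
  ext p
  · simp only [RingHom.coe_comp, Function.comp_apply]
    rw [← Polynomial.algebraMap_eq (R := K)]
    have h1 := Fermat.Agent.H56.RH.ratFuncHom_algebraMap y hy (algebraMap K K[X] p)
    have h2 := rhAlgHom_algebraMap_polynomial y hy (algebraMap K K[X] p)
    rw [h1]
    exact h2.symm
  · simp only [RingHom.coe_comp, Function.comp_apply]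
    have h1 := Fermat.Agent.H56.RH.ratFuncHom_algebraMap y hy (X : K[X])
    have h2 := rhAlgHom_algebraMap_polynomial y hy (X : K[X])
    rw [h1]
    exact h2.symm

theorem ratFuncHom_apply_eq (y : F) (hy : Transcendental K y) (u : RatFunc K) :
    Fermat.Agent.H56.RH.ratFuncHom y hy u = rhAlgHom y hy u := by
  rw [ratFuncHom_eq_rhAlgHom]; rfl

theorem ratFuncAlgebra_comp_eq (y : F) (hy : Transcendental K y) :
    letI := Fermat.Agent.H56.RH.ratFuncAlgebra y hy
    (algebraMap (RatFunc K) F).comp
        ((RatFunc.algEquivOfTranscendental y hy).symm : K⟮y⟯ ≃+* RatFunc K).toRingHom =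
      (RingEquiv.refl F).toRingHom.comp (algebraMap K⟮y⟯ F) := by
  letI := Fermat.Agent.H56.RH.ratFuncAlgebra y hy
  ext x
  show Fermat.Agent.H56.RH.ratFuncHom y hy ((RatFunc.algEquivOfTranscendental y hy).symm x)
    = (x : F)
  rw [ratFuncHom_apply_eq, rhAlgHom_apply, AlgEquiv.apply_symm_apply]

/-- **FRAME** (`Fermat.Agent.H56.RH.FrameStatement`). -/
theorem rhFrame : Fermat.Agent.H56.RH.FrameStatement := by
  intro K F _ _ _ y hy hfin hsep
  letI := Fermat.Agent.H56.RH.ratFuncAlgebra y hy
  refine ⟨?_, ?_, ?_⟩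
  · exact Module.Finite.of_equiv_equiv
      ((RatFunc.algEquivOfTranscendental y hy).symm : K⟮y⟯ ≃+* RatFunc K) (RingEquiv.refl F)
      (ratFuncAlgebra_comp_eq y hy)
  · exact Algebra.IsSeparable.of_equiv_equiv
      ((RatFunc.algEquivOfTranscendental y hy).symm : K⟮y⟯ ≃+* RatFunc K) (RingEquiv.refl F)
      (ratFuncAlgebra_comp_eq y hy)
  · exact (Algebra.finrank_eq_of_equiv_equiv
      ((RatFunc.algEquivOfTranscendental y hy).symm : K⟮y⟯ ≃+* RatFunc K) (RingEquiv.refl F)
      (ratFuncAlgebra_comp_eq y hy)).symm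

end Frame

section Dict

variable {K F : Type*} [Field K] [Field F] [Algebra K F]
variable {R : Type*} [CommRing R] [IsDedekindDomain R] [Algebra R F] [IsFractionRing R F]
  [Algebra K R] [IsScalarTower K R F]

/-- The image of `R` lies in the valuation ring of the place of a height one prime. -/
theorem rh_algebraMap_mem_ofHeightOneSpectrum (w : HeightOneSpectrum R) (r : R) :
    algebraMap R F r ∈ (Place.ofHeightOneSpectrum (K := K) (F := F) w).toValuationSubring := by
  rw [Place.ofHeightOneSpectrum_toValuationSubring, Valuation.mem_valuationSubring_iff]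
  exact w.valuation_le_one r

theorem rh_ord_ofHeightOneSpectrum_nonneg (w : HeightOneSpectrum R) (r : R) :
    0 ≤ (Place.ofHeightOneSpectrum (K := K) (F := F) w).ord (algebraMap R F r) :=
  Fermat.Agent.H29.place_ord_nonneg_of_mem _ (rh_algebraMap_mem_ofHeightOneSpectrum w r)

/-- A place whose valuation ring contains `R` comes from a height one prime of `R`. -/
theorem rh_exists_heightOneSpectrum (v : Place K F)
    (hR : ∀ r : R, algebraMap R F r ∈ v.toValuationSubring) :
    ∃ w : HeightOneSpectrum R, Place.ofHeightOneSpectrum (K := K) (F := F) w = v := by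
  apply Fermat.Agent.H29.exists_heightOneSpectrum_of_le v hR
  by_contra hne
  push Not at hne
  -- every nonzero element of `R` has order zero, so `O_v = F`
  apply v.ne_top'
  refine SetLike.ext fun x => ⟨fun _ => ValuationSubring.mem_top x, fun _ => ?_⟩
  obtain ⟨a, b, hb, rfl⟩ := IsFractionRing.div_surjective (A := R) x
  have hb0 : b ≠ 0 := nonZeroDivisors.ne_zero hb
  have hbo : v.ord (algebraMap R F b) = 0 := by
    have h1 := hne b hb0
    have h2 := Fermat.Agent.H29.place_ord_nonneg_of_mem v (hR b)
    omega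
  rw [div_eq_mul_inv]
  refine mul_mem (hR a) (Fermat.Agent.H29.place_mem_of_ord_nonneg v ?_)
  rw [v.ord_inv, hbo]
  simp

/-- An element of `F` which is regular at all places of height one primes of `R` lies in `R`. -/
theorem rh_mem_range_of_forall_ord_nonneg (f : F)
    (h : ∀ w : HeightOneSpectrum R,
      0 ≤ (Place.ofHeightOneSpectrum (K := K) (F := F) w).ord f) :
    f ∈ Set.range (algebraMap R F) := by
  have hf : f ∈ (algebraMap R F).range := by
    apply HeightOneSpectrum.mem_integers_of_valuation_le_one F f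
    intro w
    have hw := Fermat.Agent.H29.place_mem_of_ord_nonneg _ (h w)
    rw [Place.ofHeightOneSpectrum_toValuationSubring, Valuation.mem_valuationSubring_iff] at hw
    exact hw
  exact hf

end Dict

/-- **DICT, strong form**: no hypothesis on `K`, `y` beyond the fact that the image of `A` in
`F` is `K[y]`. -/
theorem rhDict' {K F A B : Type*} [Field K] [Field F] [Algebra K F]
    [CommRing A] [Algebra A F]
    [CommRing B] [IsDedekindDomain B] [Algebra K B] [Algebra B F]
    [IsScalarTower K B F] [IsFractionRing B F] [Algebra A B] [IsScalarTower A B F]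
    [IsIntegralClosure B A F] (y : F)
    (hA : Set.range (algebraMap A F) = (Algebra.adjoin K {y} : Set F)) :
    (∀ v : Place K F, 0 ≤ v.ord y →
      ∃ w : HeightOneSpectrum B, Place.ofHeightOneSpectrum (K := K) (F := F) w = v) ∧
    (∀ w : HeightOneSpectrum B, 0 ≤ (Place.ofHeightOneSpectrum (K := K) (F := F) w).ord y) ∧
    (∀ f : F, f ∈ Set.range (algebraMap B F) ↔ ∀ v : Place K F, 0 ≤ v.ord y → 0 ≤ v.ord f) := by
  -- the image of `B` lies in the valuation ring of every place with `0 ≤ ord_v y`
  have hBv : ∀ v : Place K F, 0 ≤ v.ord y → ∀ b : B, algebraMap B F b ∈ v.toValuationSubring := by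
    intro v hv b
    have hyv : y ∈ v.toValuationSubring := Fermat.Agent.H29.place_mem_of_ord_nonneg v hv
    have hAv : ∀ a : A, algebraMap A F a ∈ v.toValuationSubring := by
      intro a
      have ha : algebraMap A F a ∈ (Algebra.adjoin K {y} : Set F) := by
        rw [← hA]; exact ⟨a, rfl⟩
      have ha' : algebraMap A F a ∈ Algebra.adjoin K {y} := ha
      rw [Algebra.adjoin_singleton_eq_range_aeval] at ha'
      obtain ⟨q, hq⟩ := ha'
      rw [← hq]
      show aeval y q ∈ _
      rw [Polynomial.aeval_eq_sum_range]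
      refine sum_mem (fun i _ => ?_)
      rw [Algebra.smul_def]
      exact mul_mem (v.algebraMap_mem' _) (pow_mem hyv _)
    let ψ : A →+* v.toValuationSubring :=
      (algebraMap A F).codRestrict v.toValuationSubring.toSubring hAv
    letI : Algebra A v.toValuationSubring := ψ.toAlgebra
    haveI : IsScalarTower A v.toValuationSubring F :=
      IsScalarTower.of_algebraMap_eq (fun a => rfl)
    have hb : IsIntegral A (algebraMap B F b) :=
      (IsIntegralClosure.isIntegral_iff (A := B)).mpr ⟨b, rfl⟩
    have hb' : IsIntegral v.toValuationSubring (algebraMap B F b) := hb.tower_top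
    obtain ⟨a, ha⟩ := IsIntegrallyClosed.isIntegral_iff.mp hb'
    rw [← ha]
    exact a.2
  have h1 : ∀ v : Place K F, 0 ≤ v.ord y →
      ∃ w : HeightOneSpectrum B, Place.ofHeightOneSpectrum (K := K) (F := F) w = v :=
    fun v hv => rh_exists_heightOneSpectrum v (hBv v hv)
  have h2 : ∀ w : HeightOneSpectrum B,
      0 ≤ (Place.ofHeightOneSpectrum (K := K) (F := F) w).ord y := by
    intro w
    have hy' : y ∈ Set.range (algebraMap A F) := by
      rw [hA]; exact Algebra.self_mem_adjoin_singleton K y
    obtain ⟨a, ha⟩ := hy'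
    rw [← ha, IsScalarTower.algebraMap_apply A B F]
    exact rh_ord_ofHeightOneSpectrum_nonneg w _
  refine ⟨h1, h2, fun f => ⟨?_, fun h => ?_⟩⟩
  · rintro ⟨b, rfl⟩ v hv
    exact Fermat.Agent.H29.place_ord_nonneg_of_mem v (hBv v hv b)
  · exact rh_mem_range_of_forall_ord_nonneg f (fun w => h _ (h2 w))

/-- **DICT** (`Fermat.Agent.H56.RH.DictStatement`). -/
theorem rhDict : Fermat.Agent.H56.RH.DictStatement := by
  intro K F A B _ _ _ _ _ _ _ _ _ _ _ _ _ _ _ _ y _hy _halg hA
  exact rhDict' y hA

end Fermat.Agent.H19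

end
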