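/-
helper19, ES-D-A4 (Riemann-Hurwitz for the Riemann genus): proof of
`Fermat.Agent.H56.RH.FibreSumStatement` and `Fermat.Agent.H56.RH.DictStrongStatement`.
-/
import Fermat.Agent.H56.RH.Interfaces3
import Fermat.Agent.H19.RH.FrameDict
import Fermat.Agent.H19.RH.FibreSum
import Fermat.Agent.H29.ResidueConst

set_option autoImplicit false
set_option linter.style.haveILetI false

noncomputable section

open Polynomial IntermediateField AlgebraicCurve IsDedekindDomain

namespace Fermat.Agent.H19

open Fermat.Agent.H27.ESD (ramIdx)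
open Fermat.Agent.H56.RH

/-- **DICT, strong form** in the shape of `Fermat.Agent.H56.RH.DictStrongStatement`. -/
theorem rhDictStrong : DictStrongStatement := by
  intro K F A B _ _ _ _ _ _ _ _ _ _ _ _ _ _ _ y hA
  exact rhDict' y hA

section Frame

variable {K F : Type} [Field K] [Field F] [Algebra K F]
  [Algebra K[X] F] [Algebra (RatFunc K) F] [IsScalarTower K K[X] F]
  [IsScalarTower K[X] (RatFunc K) F] [IsScalarTower K (RatFunc K) F]
  [Algebra (PolyInv K) F] [IsScalarTower (PolyInv K) (RatFunc K) F]
  [IsScalarTower K (PolyInv K) F]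

/-- In the frame, the algebra map `K(X) → F` is `algEquivOfTranscendental` followed by the
inclusion of `K⟮y⟯`. -/
theorem rh_frame_algebraMap_eq (u : RatFunc K) :
    ((RatFunc.algEquivOfTranscendental (yOf K F) yOf_transcendental u : K⟮yOf K F⟯) : F) =
      algebraMap (RatFunc K) F u := by
  have key : ∀ q : K[X],
      rhAlgHom (yOf K F) yOf_transcendental (algebraMap K[X] (RatFunc K) q) =
        algebraMap (RatFunc K) F (algebraMap K[X] (RatFunc K) q) := by
    intro q
    rw [rhAlgHom_algebraMap_polynomial, ← IsScalarTower.algebraMap_apply K[X] (RatFunc K) F]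
    exact (algebraMap_poly_eq_aeval (F := F) q).symm
  have h : (rhAlgHom (yOf K F) yOf_transcendental).toRingHom = algebraMap (RatFunc K) F :=
    IsLocalization.ringHom_ext (nonZeroDivisors K[X]) (RingHom.ext key)
  exact congrFun (congrArg DFunLike.coe h) u

/-- In the frame, `F` is algebraic over `K⟮y⟯` as soon as it is algebraic over `K(X)`. -/
theorem rh_frame_isAlgebraic [Algebra.IsAlgebraic (RatFunc K) F] :
    Algebra.IsAlgebraic K⟮yOf K F⟯ F := by
  refine Algebra.IsAlgebraic.ringHom_of_comp_eq (R := RatFunc K) (A := F) (S := K⟮yOf K F⟯)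
    (B := F)
    ((RatFunc.algEquivOfTranscendental (yOf K F) yOf_transcendental : RatFunc K ≃ₐ[K] _) :
      RatFunc K →+* K⟮yOf K F⟯) (RingHom.id F)
    (RatFunc.algEquivOfTranscendental (yOf K F) yOf_transcendental).injective
    (fun x => ⟨x, rfl⟩) ?_
  ext u
  exact rh_frame_algebraMap_eq u

/-- In the frame over an algebraically closed field all places have degree one. -/
theorem rh_frame_deg_one [IsAlgClosed K] [FiniteDimensional (RatFunc K) F] (v : Place K F) :
    v.deg = 1 := by
  haveI : Algebra.IsAlgebraic (RatFunc K) F := Algebra.IsAlgebraic.of_finite _ _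
  haveI := rh_frame_isAlgebraic (K := K) (F := F)
  exact Fermat.Agent.H29.place_deg_eq_one (y := yOf K F) v

theorem rh_frame_algebraMap_X_sub_C (c : K) :
    algebraMap K[X] F (X - C c) = yOf K F - algebraMap K F c := by
  rw [map_sub, algebraMap_poly_X, ← Polynomial.algebraMap_eq,
    ← IsScalarTower.algebraMap_apply K K[X] F]

end Frame

/-- **FIBRE SUM** (`Fermat.Agent.H56.RH.FibreSumStatement`). -/
theorem rhFibreSum : FibreSumStatement := by
  intro K F _ _ _ _ _ _ _ _ _ _ _ _ _ _ _ _ Cs hfin hfinInf hC
  haveI hFR : IsFractionRing (integralClosure K[X] F) F :=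
    isFractionRing_integralClosure K[X] (RatFunc K) F
  haveI hFR' : IsFractionRing (integralClosure (PolyInv K) F) F :=
    isFractionRing_integralClosure (PolyInv K) (RatFunc K) F
  have hy : Transcendental K (yOf K F) := yOf_transcendental
  have hdeg : ∀ v : Place K F, v.deg = 1 := fun v => rh_frame_deg_one v
  have hD := rhDict' (K := K) (F := F) (A := K[X]) (B := integralClosure K[X] F) (yOf K F)
    range_algebraMap_poly
  have hD' := rhDict' (K := K) (F := F) (A := PolyInv K)
    (B := integralClosure (PolyInv K) F) (yOf K F)⁻¹ range_algebraMap_polyInv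
  have ht : ∀ c : K, algebraMap K[X] F (X - C c) = yOf K F - algebraMap K F c :=
    rh_frame_algebraMap_X_sub_C
  have ht' : algebraMap (PolyInv K) F PolyInv.t = (yOf K F)⁻¹ := algebraMap_polyInv_t
  -- finiteness of the fibres
  have hfibfin : ∀ c : K, (rhFibre (K := K) (yOf K F) c).Finite := fun c =>
    rh_fibre_finite (K := K) (F := F) (X - C c : K[X]) (ht c) hD.1 (hfin c)
  have hfibinf : (rhFibreInf K (yOf K F)).Finite :=
    rh_fibreInf_finite (K := K) (F := F) (PolyInv.t : PolyInv K) ht' hD'.1 hfinInf
  have hC' : ∀ (c : K) (v : Place K F), 0 < v.ord (yOf K F - algebraMap K F c) →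
      1 < ramIdx (yOf K F) v → c ∈ Cs := by
    intro c v hv hram
    obtain ⟨w, hw⟩ := rh_exists_expAt_of_ramified (K := K) (F := F) (X - C c : K[X]) (ht c)
      hD.1 v hv hram
    exact hC c w hw
  obtain ⟨hramfin, hsum⟩ := rh_finsum_fibres hdeg hy hfibfin hfibinf Cs hC'
  refine ⟨hramfin, ?_, ?_⟩
  · rw [hsum]
    congr 1
    · refine Finset.sum_congr rfl fun c _ => ?_
      rw [rh_finsum_fibre_eq (K := K) (F := F) (X - C c : K[X]) (ht c) hD.1]
      refine (map_finsum (Nat.castAddMonoidHom ℤ) ?_).symm
      refine (hfin c).subset ?_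
      intro P hP
      have hP' : expAt (X - C c : K[X]) P - 1 ≠ 0 := hP
      show 0 < expAt (X - C c : K[X]) P
      omega
    · rw [rh_finsum_fibreInf_eq (K := K) (F := F) (PolyInv.t : PolyInv K) ht' hD'.1]
      refine (map_finsum (Nat.castAddMonoidHom ℤ) ?_).symm
      refine hfinInf.subset ?_
      intro P hP
      have hP' : expAt (PolyInv.t : PolyInv K) P - 1 ≠ 0 := hP
      show 0 < expAt (PolyInv.t : PolyInv K) P
      omega
  · intro htame
    refine ⟨fun c P hP => ?_, fun P hP => ?_⟩
    · rw [← rh_ramIdx_eq_expAt (K := K) (F := F) (X - C c : K[X]) (ht c) P hP]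
      exact htame _
    · rw [← rh_ramIdx_eq_expAt_inv (K := K) (F := F) (PolyInv.t : PolyInv K) ht' P hP]
      exact htame _

end Fermat.Agent.H19

end
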