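/-
helper19 (row owner of ES-D-A4): the unconditional Riemann-Hurwitz statement for the Riemann
genus, wiring of the landed blocks
(LC helper90, LD helper47 + helper75, FRAME/DICT/FIBRE SUM helper19, global part + assembly
helper56).
-/
import Fermat.Agent.H56.RH.HurwitzLD
import Fermat.Agent.H47.RH.LocalDiscr

set_option autoImplicit false

namespace Fermat.Agent.H19

/-- **ES-D-A4**: Riemann-Hurwitz for the Riemann genus, any characteristic. -/
theorem hurwitzStatement : Fermat.Agent.H27.ESD.HurwitzStatement :=
  Fermat.Agent.H56.RH.hurwitz_of_localDiscr Fermat.Agent.H47.RH.localDiscr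

end Fermat.Agent.H19
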